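import Fermat.Agent.Gateway.Export.Final
import Fermat.Agent.Gateway.Dict.NormProdFormula
import Fermat.Agent.Gateway.GoodRed.GaussNorm
import Fermat.Agent.Gateway.Descent.KummerGlue

/-!
P-GATEWAY, final glue, second step.  D5 (`Dict.NormProdFormula.normProdFormula`), Gauss
normalisability (`GoodRed.gaussNormalisable`) and the descent of (C0) from good levels
(`Descent.kummerRedInj_all_of_good`) are theorems; the frozen statements S30, S29, S42, S31 follow
from the single remaining input `C0Good`: injectivity of reduction on Kummer classes at good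
levels.
-/

set_option autoImplicit false

namespace Fermat.Agent.Gateway.Export

open ModularCurve AlgebraicCurve

local notation "Qb" => AlgebraicClosure ℚ

/-- **The single remaining input** (C0 at good levels): for a level `M` divisible by `4` (odd
residue characteristic) or by `9` (residue characteristic `2`), reduction is injective on Kummer
classes of exponent prime to the residue characteristic. -/
def C0Good : Prop :=
  ∀ (M : ℕ) [NeZero M] (m ℓ : ℕ), ℓ.Prime → ¬ ℓ ∣ m * M →
    ((ℓ ≠ 2 ∧ 4 ∣ M) ∨ (ℓ = 2 ∧ 9 ∣ M)) →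
    ∀ A : ValuationSubring Qb, A.LiesOverPrime ℓ → Kummer.KummerRedInj M A m

/-- D5 is a theorem. -/
theorem d5Input (N : ℕ) [NeZero N] : D5Input N :=
  fun ℓ _ _ hℓN => Dict.NormProdFormula.normProdFormula ℓ N hℓN

/-- the unconditional core inputs. -/
noncomputable def coreInputs' (N : ℕ) [NeZero N] : CoreInputs N := coreInputs N (d5Input N)

/-- part (c) from (C0) at good levels. -/
theorem partCInputs (h : C0Good) (N : ℕ) [NeZero N] : PartCInputs N :=
  ⟨GoodRed.gaussNormalisable N, Descent.kummerRedInj_all_of_good N h⟩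

/-- **S30** from (C0) at good levels. -/
theorem s30Statement_of_c0 (h : C0Good) : Assembly.S30Statement :=
  s30Statement (fun N _ => d5Input N) (fun N _ => partCInputs h N)

/-- **S29** from (C0) at good levels. -/
theorem s29Statement_of_c0 (h : C0Good) : Assembly.S29Statement :=
  s29Statement (fun N _ => d5Input N) (fun N _ => partCInputs h N)

/-- **S42** from (C0) at good levels. -/
theorem s42Statement_of_c0 (h : C0Good) : Assembly.S42Statement :=
  s42Statement (fun N _ => d5Input N) (fun N _ => partCInputs h N)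

/-- **S31** from (C0) at good levels. -/
theorem s31_of_c0 (h : C0Good) {N : ℕ} [NeZero N]
    {p : ℕ} {S : Finset ℕ}
    {𝒪 : Type} [CommRing 𝒪] [IsDomain 𝒪] [IsDiscreteValuationRing 𝒪]
    [IsAdicComplete (IsLocalRing.maximalIdeal 𝒪) 𝒪]
    {θ : CuspForm.heckeAlgebra N 2 (↑S : Set ℕ) →+* IsLocalRing.ResidueField 𝒪}
    {T : Type} [CommRing T] [IsLocalRing T] [IsNoetherianRing T]
    [IsAdicComplete (IsLocalRing.maximalIdeal T) T] [Algebra 𝒪 T] [IsLocalHom (algebraMap 𝒪 T)]
    [Module.Finite 𝒪 T] [Module.Free 𝒪 T]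
    (hp : p.Prime) (hp𝒪 : (p : 𝒪) ∈ IsLocalRing.maximalIdeal 𝒪) (hpS : p ∈ S)
    (hNS : ∀ q : ℕ, q.Prime → q ∣ N → q ∈ S)
    (H : CuspForm.HeckeGaloisRepDatum N (↑S : Set ℕ) 𝒪 θ T)
    (q : ℕ) (hq : q.Prime) (hqS : q ∉ S) :
    H.ρ.IsUnramifiedAt q :=
  s31_of_inputs (d5Input N) (partCInputs h N) hp hp𝒪 hpS hNS H q hq hqS

end Fermat.Agent.Gateway.Export
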