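import Fermat.Agent.Gateway.C0.Final
import Fermat.Agent.Gateway.GoodRed.Instantiate.GenusFinal
import Fermat.Agent.Gateway.Export.Final2

/-!
P-GATEWAY, last step: (C0) at good levels is a theorem ((G2) = `GoodRed.genusFF_le_of_four_dvd`,
`genusFF_le_of_nine_dvd`; `C0.Final.hgood_of_genusLE`), hence the frozen statements S30, S29, S42,
S31 hold unconditionally.
-/

set_option autoImplicit false

namespace Fermat.Agent.Gateway.Export

open ModularCurve AlgebraicCurve
open Fermat.Agent.Gateway.GoodRed Fermat.Agent.Gateway.Kummer

local notation "Qb" => AlgebraicClosure ℚ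

/-- (G2) at good levels, for the residue fields of the valuation subrings of `ℚ̄`. -/
theorem genusLE_goodLevels : C0.Final.GenusLEAtGoodLevelsRes := by
  intro M _ ℓ _ hℓM hg A hA
  have hℓ : ℓ.Prime := Fact.out
  haveI : CharP (IsLocalRing.ResidueField A) ℓ := charP_residueField hℓ A hA
  haveI : IsAlgClosed (IsLocalRing.ResidueField A) := residueField_isAlgClosed A
  rcases hg with ⟨-, h4⟩ | ⟨-, h9⟩
  · exact genusFF_le_of_four_dvd ℓ A (IsLocalRing.residue A) IsLocalRing.residue_surjective hℓM h4
  · exact genusFF_le_of_nine_dvd ℓ A (IsLocalRing.residue A) IsLocalRing.residue_surjective hℓM h9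

/-- **(C0) at good levels.** -/
theorem c0Good : C0Good :=
  C0.Final.hgood_of_genusLE genusLE_goodLevels

/-- **S30** (statement form). -/
theorem s30Statement_final : Assembly.S30Statement := s30Statement_of_c0 c0Good

/-- **S29** (statement form). -/
theorem s29Statement_final : Assembly.S29Statement := s29Statement_of_c0 c0Good

/-- **S42** (statement form). -/
theorem s42Statement_final : Assembly.S42Statement := s42Statement_of_c0 c0Good

end Fermat.Agent.Gateway.Export
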