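import Fermat.Agent.Gateway.A2.CountPE

/-!
P-GATEWAY, export layer: an operator on additive characters of `Γ`, natural in the coefficient
group and preserving `homPE`, is precomposition with an endomorphism of the universal quotient.
-/

set_option autoImplicit false

namespace Fermat.Agent.Gateway.Export

open Fermat.Agent.Gateway.A2 Fermat.Agent.Gateway.A2.Count

open scoped MatrixGroups

/-- a cohomological operator: acts on `Hom(Γ, B)` for all `B`, naturally, preserving `homPE`. -/
structure CohOp (Γ : Subgroup SL(2, ℤ)) where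
  /-- the operator -/
  op : ∀ (B : Type) [AddCommGroup B], (Additive Γ →+ B) →+ (Additive Γ →+ B)
  natural : ∀ (B C : Type) [AddCommGroup B] [AddCommGroup C] (f : B →+ C) (φ : Additive Γ →+ B),
    op C (f.comp φ) = f.comp (op B φ)
  pres : ∀ (B : Type) [AddCommGroup B] (φ : Additive Γ →+ B), φ ∈ homPE ℤ Γ B → op B φ ∈ homPE ℤ Γ B

namespace CohOp

variable {Γ : Subgroup SL(2, ℤ)} (T : CohOp Γ)

/-- the projection, as an element of `homPE`. -/
theorem proj_mem : peRes Γ ℤ (Additive (PEQuot Γ)) (AddMonoidHom.id _) ∈ homPE ℤ Γ (Additive (PEQuot Γ)) := by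
  rw [← range_peRes]
  exact LinearMap.mem_range_self _ _

/-- the endomorphism of the universal quotient representing `T`. -/
noncomputable def toEnd : Module.End ℤ (Additive (PEQuot Γ)) :=
  (peLift Γ ℤ (Additive (PEQuot Γ)) (T.op _ (peRes Γ ℤ _ (AddMonoidHom.id _)))
    (T.pres _ _ proj_mem)).toIntLinearMap

theorem peRes_toEnd :
    peRes Γ ℤ (Additive (PEQuot Γ)) T.toEnd.toAddMonoidHom
      = T.op _ (peRes Γ ℤ _ (AddMonoidHom.id _)) := by
  have := peRes_peLift Γ ℤ (Additive (PEQuot Γ)) (T.op _ (peRes Γ ℤ _ (AddMonoidHom.id _)))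
    (T.pres _ _ proj_mem)
  rw [← this]
  rfl

theorem peRes_comp_toEnd (R : Type*) [Semiring R] (B : Type) [AddCommGroup B] [Module R B]
    (φ : Additive (PEQuot Γ) →+ B) :
    peRes Γ R B (φ.comp T.toEnd.toAddMonoidHom) = T.op B (peRes Γ R B φ) := by
  have h1 : peRes Γ R B (φ.comp T.toEnd.toAddMonoidHom)
      = φ.comp (peRes Γ ℤ (Additive (PEQuot Γ)) T.toEnd.toAddMonoidHom) := rfl
  rw [h1, peRes_toEnd, ← T.natural]
  rfl

end CohOp

end Fermat.Agent.Gateway.Export
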