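import Fermat.Agent.Gateway.Export.Lattice
import Fermat.Agent.Gateway.A2.Final
import Fermat.Agent.S20
import Fermat.Agent.S21

/-!
P-GATEWAY, export layer: the period isomorphism `S₂ × S₂ ≃ Hom(Q, ℂ)` with
`Q = Γ₀(N)^ab / ⟨parabolic, elliptic⟩`, and freeness of `Q`.
-/

set_option autoImplicit false

namespace Fermat.Agent.Gateway.Export

open CongruenceSubgroup ModularCurve Fermat.Agent.Gateway.A2 Fermat.Agent.Gateway.A2.Count

open scoped MatrixGroups

variable (N : ℕ) [NeZero N]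

/-- the lattice `Q = Γ₀(N)^ab / ⟨parabolic, elliptic, ±1⟩`, additively. -/
abbrev QLat : Type := Additive (PEQuot (Gamma0 N))

theorem exists_QLat_equiv : ∃ g : ℕ, (g : ℚ) = ModularCurve.genusFormula N ∧
    Nonempty (QLat N ≃+ (Fin (2 * g) →₀ ℤ)) := by
  obtain ⟨g, hg, he, -⟩ := a2_Gamma0_of_S20_S21 N (Fermat.Agent.S20.result N)
    (Fermat.Agent.S21.result N)
  exact ⟨g, hg, he⟩

instance instFreeQLat : Module.Free ℤ (QLat N) := by
  obtain ⟨g, -, ⟨e⟩⟩ := exists_QLat_equiv N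
  exact Module.Free.of_equiv e.toIntLinearEquiv.symm

instance instFiniteQLat : Module.Finite ℤ (QLat N) := by
  obtain ⟨g, -, ⟨e⟩⟩ := exists_QLat_equiv N
  exact Module.Finite.equiv e.toIntLinearEquiv.symm

/-- the period pairing, with values in `Hom(Q, ℂ)`. -/
noncomputable def periodQ :
    (CuspForm (Gamma0 N) 2 × CuspForm (Gamma0 N) 2) →ₗ[ℂ] (QLat N →+ ℂ) :=
  (homPEEquiv (Gamma0 N) ℂ ℂ).symm.toLinearMap ∘ₗ
    (LinearMap.codRestrict (homPE ℂ (Gamma0 N) ℂ) (periodHomPair N) (fun w => by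
      rw [homPE_complex_eq, ← (Fermat.Agent.S21.result N).2]
      exact LinearMap.mem_range_self _ w))

theorem peRes_periodQ (w : CuspForm (Gamma0 N) 2 × CuspForm (Gamma0 N) 2) :
    peRes (Gamma0 N) ℂ ℂ (periodQ N w) = periodHomPair N w := by
  unfold periodQ
  rw [LinearMap.comp_apply]
  set y : homPE ℂ (Gamma0 N) ℂ := LinearMap.codRestrict (homPE ℂ (Gamma0 N) ℂ) (periodHomPair N) _ w
    with hy
  have h1 : ((homPEEquiv (Gamma0 N) ℂ ℂ) ((homPEEquiv (Gamma0 N) ℂ ℂ).symm y) : Additive (Gamma0 N) →+ ℂ)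
      = y := by rw [LinearEquiv.apply_symm_apply]
  have h2 : ∀ φ : QLat N →+ ℂ, ((homPEEquiv (Gamma0 N) ℂ ℂ) φ : Additive (Gamma0 N) →+ ℂ)
      = peRes (Gamma0 N) ℂ ℂ φ := fun φ => rfl
  rw [h2] at h1
  exact h1

theorem periodQ_injective : Function.Injective (periodQ N) := by
  intro w w' h
  apply (Fermat.Agent.S21.result N).1
  rw [← peRes_periodQ, ← peRes_periodQ, h]

theorem periodQ_surjective : Function.Surjective (periodQ N) := by
  intro φ
  have hmem : peRes (Gamma0 N) ℂ ℂ φ ∈ LinearMap.range (periodHomPair N) := by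
    rw [(Fermat.Agent.S21.result N).2, ← homPE_complex_eq, ← range_peRes (Gamma0 N) ℂ ℂ]
    exact LinearMap.mem_range_self _ φ
  obtain ⟨w, hw⟩ := hmem
  refine ⟨w, peRes_injective (Gamma0 N) ℂ ℂ ?_⟩
  rw [peRes_periodQ, hw]

end Fermat.Agent.Gateway.Export
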