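import Fermat.Agent.Gateway.Export.CohOp
import Fermat.Agent.Gateway.Export.Period
import Fermat.Agent.Gateway.S31.Data
import Fermat.Prelude.Def_ModularCurve_HeckeOperatorTotal
import Fermat.Prelude.Def_ModularCurve_ArithmeticGalois

/-!
P-GATEWAY, export contract: the statements which the producers (a), (b), (c) deliver, in the
exact shape consumed by `Export/Main.lean`.
-/

set_option autoImplicit false

namespace Fermat.Agent.Gateway.Export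

open CongruenceSubgroup ModularCurve AlgebraicCurve Fermat.Agent.Gateway.A2
  Fermat.Agent.Gateway.A2.Count

open scoped MatrixGroups

local notation "Qb" => AlgebraicClosure ℚ
local notation "Γℚ" => (AlgebraicClosure ℚ ≃ₐ[ℚ] AlgebraicClosure ℚ)

variable (N : ℕ) [NeZero N]

/-- the Hecke correspondence `T_ℓ` on `J₀(N)(ℚ̄)`, for a prime `ℓ`. -/
noncomputable def heckeJ (ℓ : ℕ) (hℓ : ℓ.Prime) : JZero N →+ JZero N :=
  haveI : NeZero ℓ := ⟨hℓ.ne_zero⟩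
  heckeOperatorAlong Qb N ℓ

/-- the `m`-torsion of `J₀(N)(ℚ̄)`. -/
noncomputable abbrev Tors (m : ℕ) : AddSubgroup (JZero N) := Pic0.torsion Qb (modularFunctionFieldBar N) m

/-- **E4** (WP-HK2): the Galois action commutes with the Hecke correspondences. -/
def GaloisHeckeComm : Prop :=
  ∀ (ℓ : ℕ) (hℓ : ℓ.Prime) (σ : Γℚ) (x : JZero N), σ • heckeJ N ℓ hℓ x = heckeJ N ℓ hℓ (σ • x)

/-- **E7**: the Galois action on the `m`-torsion factors through a finite extension. -/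
def GalLevel : Prop :=
  ∀ m : ℕ, 0 < m → ∃ K : IntermediateField ℚ Qb, FiniteDimensional ℚ K ∧
    ∀ σ : Γℚ, (∀ a ∈ K, σ a = a) → ∀ x ∈ Tors N m, σ • x = x

/-- **E5** (part (c)): inertia at `ℓ ∤ m N` acts trivially on the `m`-torsion. -/
def UnramifiedTorsion : Prop :=
  ∀ (m ℓ : ℕ), ℓ.Prime → ¬ ℓ ∣ m → ¬ ℓ ∣ N → ∀ A : ValuationSubring Qb, A.LiesOverPrime ℓ →
    ∀ σ ∈ A.inertiaSubgroupIn ℚ, ∀ x ∈ Tors N m, σ • x = x

/-- **E6** (part (c)): the Eichler-Shimura relation on the `m`-torsion, `ℓ ∤ m N`. -/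
def EichlerShimuraTorsion : Prop :=
  ∀ (m ℓ : ℕ) (hℓ : ℓ.Prime), ¬ ℓ ∣ m → ¬ ℓ ∣ N → ∀ A : ValuationSubring Qb, A.LiesOverPrime ℓ →
    ∀ σ : Γℚ, A.IsFrobeniusAt σ ℓ → ∀ x ∈ Tors N m,
      σ • σ • x - heckeJ N ℓ hℓ (σ • x) + (ℓ : ℤ) • x = 0

/-- **E1-E3 inputs** (parts (a), (b)): cohomological Hecke operators compatible with the period
map, and Hecke-equivariant identifications of the torsion with `Hom(Q, ℤ/m)`. -/
structure CoreInputs where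
  /-- cohomological Hecke operators (WP-HK4) -/
  T : ∀ ℓ : ℕ, ℓ.Prime → ¬ ℓ ∣ N → CohOp (Gamma0 N)
  /-- compatibility with the period map (WP-HK4P) -/
  period : ∀ (ℓ : ℕ) (hℓ : ℓ.Prime) (hℓN : ¬ ℓ ∣ N)
    (w : CuspForm (Gamma0 N) 2 × CuspForm (Gamma0 N) 2),
    periodHomPair N ((CuspForm.heckeTLin 2 hℓ hℓN).prodMap (CuspForm.heckeTLin 2 hℓ hℓN) w)
      = (T ℓ hℓ hℓN).op ℂ (periodHomPair N w)
  /-- torsion = `Hom(Q, ℤ/m)` (WP-A1 + WP-BC + WP-EIS) -/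
  xi : ∀ m : ℕ, 0 < m → Tors N m ≃+ (QLat N →+ ZMod m)
  /-- Hecke equivariance (WP-HK3 + WP-BC5) -/
  xi_hecke : ∀ (m : ℕ) (hm : 0 < m) (ℓ : ℕ) (hℓ : ℓ.Prime) (hℓN : ¬ ℓ ∣ N) (x : Tors N m)
    (hx : heckeJ N ℓ hℓ x ∈ Tors N m),
    peRes (Gamma0 N) ℤ (ZMod m) (xi m hm ⟨heckeJ N ℓ hℓ x, hx⟩)
      = (T ℓ hℓ hℓN).op (ZMod m) (peRes (Gamma0 N) ℤ (ZMod m) (xi m hm x))

end Fermat.Agent.Gateway.Export
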