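import Fermat.Agent.Gateway.Export.Main
import Fermat.Agent.Gateway.Theta.Hecke
import Fermat.Agent.Gateway.Theta.Surj
import Fermat.Agent.Gateway.EIS.Main
import Fermat.Agent.Gateway.BaseChange.ModularHecke
import Fermat.Agent.Gateway.Dict.ThetaInput
import Fermat.Agent.Gateway.Dict.PlacesC
import Fermat.Agent.Gateway.Hecke.CohPeriod
import Fermat.Agent.Gateway.Hecke.CohPE

/-!
P-GATEWAY, export layer: the instance of `CoreInputs N` assembled from the landed packages
(A2, HK1, HK4, HK4P, ROOT, DICT, EIS, A1, HK3, BC, BC5).  The only remaining hypothesis is D5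
(`NormProdFormula` for `dictInput N`).
-/

set_option autoImplicit false

namespace Fermat.Agent.Gateway.Export

open CongruenceSubgroup ModularCurve AlgebraicCurve Fermat.Agent.Gateway.A2
  Fermat.Agent.Gateway.A2.Count Fermat.Agent.Gateway.HeckeCoh Fermat.Agent.Gateway.Theta
  Fermat.Agent.Gateway.Dict.ThetaInput Fermat.Agent.S24

open scoped MatrixGroups

section Generic

variable (Γ : Subgroup SL(2, ℤ)) (C : Type) [CommGroup C]

/-- homomorphisms out of the universal quotient, as characters. -/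
noncomputable def homToChar : (Additive (PEQuot Γ) →+ Additive C) →+ Additive (charPE Γ C) where
  toFun φ := Additive.ofMul ⟨MonoidHom.toAdditive.symm (peRes Γ ℤ (Additive C) φ), by
    intro γ hγ
    have h := (range_peRes Γ ℤ (Additive C)).le (LinearMap.mem_range_self _ φ) γ hγ
    exact congrArg Additive.toMul h⟩
  map_zero' := rfl
  map_add' _ _ := rfl

theorem toAdditive_homToChar (φ : Additive (PEQuot Γ) →+ Additive C) :
    MonoidHom.toAdditive ((Additive.toMul (homToChar Γ C φ) : charPE Γ C) : Γ →* C)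
      = peRes Γ ℤ (Additive C) φ := rfl

theorem homToChar_bijective : Function.Bijective (homToChar Γ C) := by
  constructor
  · intro φ ψ h
    apply peRes_injective Γ ℤ (Additive C)
    rw [← toAdditive_homToChar, ← toAdditive_homToChar, h]
  · intro χ
    have hmem : MonoidHom.toAdditive ((Additive.toMul χ : charPE Γ C) : Γ →* C)
        ∈ homPE ℤ Γ (Additive C) := by
      intro γ hγ
      exact congrArg Additive.ofMul ((Additive.toMul χ).2 γ hγ)
    refine ⟨peLift Γ ℤ (Additive C) _ hmem, ?_⟩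
    apply Additive.toMul.injective
    apply Subtype.ext
    apply MonoidHom.toAdditive.injective
    rw [toAdditive_homToChar, peRes_peLift]

/-- characters in `charPE` as homomorphisms out of the universal quotient. -/
noncomputable def charToHom : Additive (charPE Γ C) ≃+ (Additive (PEQuot Γ) →+ Additive C) :=
  (AddEquiv.ofBijective (homToChar Γ C) (homToChar_bijective Γ C)).symm

theorem peRes_charToHom (χ : Additive (charPE Γ C)) :
    peRes Γ ℤ (Additive C) (charToHom Γ C χ)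
      = MonoidHom.toAdditive ((Additive.toMul χ : charPE Γ C) : Γ →* C) := by
  rw [← toAdditive_homToChar]
  congr 3
  exact (AddEquiv.ofBijective (homToChar Γ C) (homToChar_bijective Γ C)).apply_symm_apply χ

/-- post-composition with an additive equivalence. -/
def postcompEquiv {Q A B : Type*} [AddCommGroup Q] [AddCommGroup A] [AddCommGroup B] (e : A ≃+ B) :
    (Q →+ A) ≃+ (Q →+ B) where
  toFun φ := e.toAddMonoidHom.comp φ
  invFun ψ := e.symm.toAddMonoidHom.comp ψ
  left_inv φ := by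
    refine AddMonoidHom.ext fun x => ?_
    show e.symm (e (φ x)) = φ x
    exact e.symm_apply_apply _
  right_inv ψ := by
    refine AddMonoidHom.ext fun x => ?_
    show e (e.symm (ψ x)) = ψ x
    exact e.apply_symm_apply _
  map_add' φ ψ := by
    refine AddMonoidHom.ext fun x => ?_
    show e (φ x + ψ x) = e (φ x) + e (ψ x)
    exact map_add e _ _

end Generic

/-- an identification of the additive group of `m`-th roots of unity with `ℤ/m`. -/
noncomputable def rootsEquiv (m : ℕ) [NeZero m] : Additive (rootsOfUnity m ℂ) ≃+ ZMod m :=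
  (zmodAddCyclicAddEquiv (G := Additive (rootsOfUnity m ℂ)) inferInstance).symm.trans
    (ZMod.ringEquivCongr (by
      rw [Nat.card_congr Additive.toMul]
      exact Complex.card_rootsOfUnity m)).toAddEquiv

variable (N : ℕ) [NeZero N]

/-- the cohomological Hecke operator `T_ℓ` as a `CohOp`. -/
noncomputable def heckeCohOp (ℓ : ℕ) (hℓ : ℓ.Prime) (hℓN : ¬ ℓ ∣ N) : CohOp (Gamma0 N) :=
  haveI : Fact ℓ.Prime := ⟨hℓ⟩
  { op := fun B _ => heckeHom N ℓ hℓN B
    natural := fun _ _ _ _ f φ => heckeHom_comp N ℓ hℓN f φ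
    pres := fun _ _ _ hφ => heckeHom_mem_homPE N ℓ hℓN hφ }

theorem heckeCohOp_op (ℓ : ℕ) (hℓ : ℓ.Prime) (hℓN : ¬ ℓ ∣ N) (B : Type) [AddCommGroup B] :
    (heckeCohOp N ℓ hℓ hℓN).op B = (haveI : Fact ℓ.Prime := ⟨hℓ⟩; heckeHom N ℓ hℓN B) := rfl

/-- the classification of places, in the shape of `Theta/Surj.lean`. -/
theorem placeCases : PlaceCases (dictInput N) := by
  intro v
  rcases Dict.PlacesC.place_cases N v with ⟨z, δ, e, h1, h2, h3, h4, h5, h6⟩ | ⟨g, w, h1, h2, h3, h4⟩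
  · exact Or.inl ⟨z, δ, e, h1, h2, h3, isPE_of_abs_trace_le h4, h5, fun f _ => h6 f⟩
  · exact Or.inr ⟨g, w, h1, h2, h3, fun f _ => h4 f⟩

/-- eigenfunctions for all characters (WP-EIS). -/
theorem exists_isEigenFun (m : ℕ) [NeZero m] :
    ∀ χ ∈ charPE (Gamma0 N) (rootsOfUnity m ℂ), ∃ hχ : MerFun, IsEigenFun χ hχ := by
  intro χ hχ
  obtain ⟨h, h0, h1, -, h3⟩ := EIS.exists_hChi N m ⟨χ, hχ⟩
  exact ⟨h, h0, h1, h3⟩

theorem finite_charPE (m : ℕ) [NeZero m] : Finite (charPE (Gamma0 N) (rootsOfUnity m ℂ)) := by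
  obtain ⟨g, -, -, hcard⟩ := a2_Gamma0_of_S20_S21 N (Fermat.Agent.S20.result N)
    (Fermat.Agent.S21.result N)
  have h := (hcard m).2
  exact Nat.finite_of_card_ne_zero (by rw [h]; exact pow_ne_zero _ (NeZero.ne m))

/-! ### The identification `J₀(N)[m](ℚ̄) ≃ Hom(Q, ℤ/m)` -/

open Fermat.Agent.Gateway.BaseChange.Modular Fermat.Agent.S24.Setup

attribute [local instance] algKbarC

instance instHasPrincipalDivisorsFC : HasPrincipalDivisors ℂ (Dict.SetupC.FC N) :=
  HK1.hasPrincipalDivisors_FL ℂ N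

theorem finite_torsionC (m : ℕ) [NeZero m] :
    Finite (Pic0.torsion ℂ (HK1.FL ℂ N) m) := by
  haveI := finite_charPE N m
  exact finite_torsion (dictInput N) (NeZero.pos N)

/-- the complex side: `J_ℂ[m] ≃ Hom(Q, ℤ/m)`. -/
noncomputable def xiC (m : ℕ) [NeZero m] :
    Pic0.torsion ℂ (Dict.SetupC.FC N) m ≃+ (QLat N →+ ZMod m) :=
  (thetaEquiv (I := dictInput N) (NeZero.pos N) (placeCases N) (exists_isEigenFun N m)).trans
    ((charToHom (Gamma0 N) (rootsOfUnity m ℂ)).trans (postcompEquiv (rootsEquiv m)))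

theorem peRes_xiC (m : ℕ) [NeZero m] (y : Pic0.torsion ℂ (Dict.SetupC.FC N) m) :
    peRes (Gamma0 N) ℤ (ZMod m) (xiC N m y)
      = (rootsEquiv m).toAddMonoidHom.comp
          (MonoidHom.toAdditive (thetaFun (dictInput N) m y)) := by
  have h1 : peRes (Gamma0 N) ℤ (ZMod m) (xiC N m y)
      = (rootsEquiv m).toAddMonoidHom.comp
          (peRes (Gamma0 N) ℤ (Additive (rootsOfUnity m ℂ))
            (charToHom (Gamma0 N) (rootsOfUnity m ℂ) (theta (dictInput N) (NeZero.pos N) y))) := rfl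
  rw [h1, peRes_charToHom, theta_apply]

/-- the identification over `ℚ̄`, with explicit instances. -/
noncomputable def xi' (m : ℕ) [NeZero m] [Finite (Pic0.torsion ℂ (HK1.FL ℂ N) m)] :
    Tors N m ≃+ (QLat N →+ ZMod m) :=
  (torsionEquiv' N m).trans (xiC N m)

theorem xi'_apply (m : ℕ) [NeZero m] [Finite (Pic0.torsion ℂ (HK1.FL ℂ N) m)] (x : Tors N m) :
    xi' N m x = xiC N m (torsionEquiv' N m x) := rfl

/-- the identification over `ℚ̄`. -/
noncomputable def xi (m : ℕ) (hm : 0 < m) : Tors N m ≃+ (QLat N →+ ZMod m) :=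
  haveI : NeZero m := ⟨hm.ne'⟩
  haveI := finite_torsionC N m
  xi' N m

/-- **E1**: the number of `m`-torsion points of `J₀(N)(ℚ̄)`. -/
theorem card_tors : ∃ g : ℕ, (g : ℚ) = ModularCurve.genusFormula N ∧
    ∀ m : ℕ, 0 < m → Nat.card (Tors N m) = m ^ (2 * g) := by
  obtain ⟨g, hg, ⟨e⟩⟩ := exists_QLat_equiv N
  refine ⟨g, hg, fun m hm => ?_⟩
  haveI : NeZero m := ⟨hm.ne'⟩
  rw [Nat.card_congr (xi N m hm).toEquiv]
  have e1 : (QLat N →+ ZMod m) ≃ ((Fin (2 * g) →₀ ℤ) →+ ZMod m) :=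
    { toFun := fun φ => φ.comp e.symm.toAddMonoidHom
      invFun := fun ψ => ψ.comp e.toAddMonoidHom
      left_inv := fun φ => by
        refine AddMonoidHom.ext fun x => ?_
        show φ (e.symm (e x)) = φ x
        rw [e.symm_apply_apply]
      right_inv := fun ψ => by
        refine AddMonoidHom.ext fun x => ?_
        show ψ (e (e.symm x)) = ψ x
        rw [e.apply_symm_apply] }
  rw [Nat.card_congr e1, Nat.card_congr (homFreeEquiv (B := ZMod m) (2 * g)), Nat.card_fun,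
    Nat.card_fin, Nat.card_zmod]

/-! ### Hecke equivariance -/

variable {N}

theorem xi'_hecke (hD5 : ∀ (ℓ : ℕ) [NeZero ℓ] [Fact ℓ.Prime], ¬ ℓ ∣ N →
      ThetaHecke.NormProdFormula ℓ (dictInput N))
    (m : ℕ) [NeZero m] [Finite (Pic0.torsion ℂ (HK1.FL ℂ N) m)]
    (ℓ : ℕ) (hℓ : ℓ.Prime) (hℓN : ¬ ℓ ∣ N) (x : Tors N m)
    (hx : heckeJ N ℓ hℓ x ∈ Tors N m) :
    peRes (Gamma0 N) ℤ (ZMod m) (xi' N m ⟨heckeJ N ℓ hℓ x, hx⟩)
      = (heckeCohOp N ℓ hℓ hℓN).op (ZMod m) (peRes (Gamma0 N) ℤ (ZMod m) (xi' N m x)) := by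
  haveI : NeZero ℓ := ⟨hℓ.ne_zero⟩
  haveI : Fact ℓ.Prime := ⟨hℓ⟩
  -- transport to the complex side
  have h1 : (⟨heckeJ N ℓ hℓ x, hx⟩ : Tors N m) = heckeTorsion N Kbar ℓ m x := Subtype.ext rfl
  have h2 : torsionEquiv' N m (heckeTorsion N Kbar ℓ m x)
      = ThetaHecke.heckeTorsion N ℓ m (torsionEquiv' N m x) := by
    rw [torsionEquiv'_heckeTorsion]
    exact Subtype.ext rfl
  have h4 : xi' N m ⟨heckeJ N ℓ hℓ x, hx⟩
      = xiC N m (ThetaHecke.heckeTorsion N ℓ m (torsionEquiv' N m x)) := by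
    rw [xi'_apply, h1, h2]
  -- the analytic compatibility
  have h3 := ThetaHecke.thetaFun_hecke (dictInput N) hℓN (HK1.heckeInputsAlong ℂ N ℓ)
    (hD5 ℓ hℓN) (torsionEquiv' N m x) (ThetaHecke.heckeTorsion N ℓ m (torsionEquiv' N m x)) rfl
  have e1 := peRes_xiC N m (ThetaHecke.heckeTorsion N ℓ m (torsionEquiv' N m x))
  have e2 := peRes_xiC N m (torsionEquiv' N m x)
  have e3 : peRes (Gamma0 N) ℤ (ZMod m) (xi' N m x)
      = peRes (Gamma0 N) ℤ (ZMod m) (xiC N m (torsionEquiv' N m x)) := rfl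
  have e5 : (rootsEquiv m).toAddMonoidHom.comp (MonoidHom.toAdditive
        (thetaFun (dictInput N) m (ThetaHecke.heckeTorsion N ℓ m (torsionEquiv' N m x))))
      = (rootsEquiv m).toAddMonoidHom.comp (MonoidHom.toAdditive
        (heckeCharHom N ℓ hℓN (rootsOfUnity m ℂ)
          (thetaFun (dictInput N) m (torsionEquiv' N m x)))) :=
    congrArg (fun χ : Gamma0 N →* rootsOfUnity m ℂ =>
      (rootsEquiv m).toAddMonoidHom.comp (MonoidHom.toAdditive χ)) h3
  have e6 : (rootsEquiv m).toAddMonoidHom.comp (MonoidHom.toAdditive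
        (heckeCharHom N ℓ hℓN (rootsOfUnity m ℂ)
          (thetaFun (dictInput N) m (torsionEquiv' N m x))))
      = heckeHom N ℓ hℓN (ZMod m) ((rootsEquiv m).toAddMonoidHom.comp
          (MonoidHom.toAdditive (thetaFun (dictInput N) m (torsionEquiv' N m x)))) := by
    rw [toAdditive_heckeCharHom, heckeHom_comp]
  have e7 : heckeHom N ℓ hℓN (ZMod m) ((rootsEquiv m).toAddMonoidHom.comp
          (MonoidHom.toAdditive (thetaFun (dictInput N) m (torsionEquiv' N m x))))
      = heckeHom N ℓ hℓN (ZMod m)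
          (peRes (Gamma0 N) ℤ (ZMod m) (xiC N m (torsionEquiv' N m x))) :=
    congrArg (heckeHom N ℓ hℓN (ZMod m)) e2.symm
  have e8 : peRes (Gamma0 N) ℤ (ZMod m) (xi' N m ⟨heckeJ N ℓ hℓ x, hx⟩)
      = peRes (Gamma0 N) ℤ (ZMod m)
          (xiC N m (ThetaHecke.heckeTorsion N ℓ m (torsionEquiv' N m x))) :=
    congrArg (peRes (Gamma0 N) ℤ (ZMod m)) h4
  exact e8.trans (e1.trans (e5.trans (e6.trans e7)))

theorem xi_hecke (hD5 : ∀ (ℓ : ℕ) [NeZero ℓ] [Fact ℓ.Prime], ¬ ℓ ∣ N →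
      ThetaHecke.NormProdFormula ℓ (dictInput N))
    (m : ℕ) (hm : 0 < m) (ℓ : ℕ) (hℓ : ℓ.Prime) (hℓN : ¬ ℓ ∣ N) (x : Tors N m)
    (hx : heckeJ N ℓ hℓ x ∈ Tors N m) :
    peRes (Gamma0 N) ℤ (ZMod m) (xi N m hm ⟨heckeJ N ℓ hℓ x, hx⟩)
      = (heckeCohOp N ℓ hℓ hℓN).op (ZMod m) (peRes (Gamma0 N) ℤ (ZMod m) (xi N m hm x)) := by
  haveI : NeZero m := ⟨hm.ne'⟩
  haveI := finite_torsionC N m
  exact xi'_hecke hD5 m ℓ hℓ hℓN x hx

variable (N)

/-- **The producer side of the export contract**, from the landed packages and D5. -/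
noncomputable def coreInputs (hD5 : ∀ (ℓ : ℕ) [NeZero ℓ] [Fact ℓ.Prime], ¬ ℓ ∣ N →
      ThetaHecke.NormProdFormula ℓ (dictInput N)) : CoreInputs N where
  T := heckeCohOp N
  period ℓ hℓ hℓN w := by
    haveI : Fact ℓ.Prime := ⟨hℓ⟩
    obtain ⟨f, g⟩ := w
    exact HeckeCohPeriod.periodHomPair_heckeTLin N ℓ hℓN hℓ f g
  xi := xi N
  xi_hecke := xi_hecke hD5

end Fermat.Agent.Gateway.Export
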