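import Fermat.Agent.Gateway.Export.Core
import Fermat.Agent.Gateway.S31.Inputs
import Fermat.Agent.Gateway.Kummer.Export
import Fermat.Agent.Gateway.Hecke.C1Qbar
import Fermat.Agent.Gateway.S30.Tate
import Fermat.Agent.Gateway.S30.Final

/-!
P-GATEWAY, final glue.  From the landed packages, the frozen statements S30, S29, S42, S31 follow
from three remaining inputs:

* `D5Input N`: the norm-product formula over `ℂ` for the dictionary `dictInput N` (WP-DICT D5);
* `PartCInputs N`: the two reduction statements of part (c): `GaussNormalisable` and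
  `KummerRedInj` (C0), at all primes not dividing the level.

Everything else (E1-E4, E7, C1, the Hecke inputs, Frobenius density, the consumer side (d)) is
plugged in here.
-/

set_option autoImplicit false

namespace Fermat.Agent.Gateway.Export

open CongruenceSubgroup ModularCurve AlgebraicCurve Fermat.Agent.Gateway.A2
  Fermat.Agent.Gateway.Theta Fermat.Agent.Gateway.Dict.ThetaInput

local notation "Qb" => AlgebraicClosure ℚ
local notation "Γℚ" => (AlgebraicClosure ℚ ≃ₐ[ℚ] AlgebraicClosure ℚ)

/-- **Remaining input D5** (WP-DICT): the norm along `α` of `β u`, over `ℂ`, as a product over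
coset representatives, for all primes `ℓ ∤ N`. -/
def D5Input (N : ℕ) [NeZero N] : Prop :=
  ∀ (ℓ : ℕ) [NeZero ℓ] [Fact ℓ.Prime], ¬ ℓ ∣ N → ThetaHecke.NormProdFormula ℓ (dictInput N)

/-- **Remaining inputs of part (c)**: Gauss normalisation and injectivity of reduction on Kummer
classes (C0), at all primes not dividing the level. -/
structure PartCInputs (N : ℕ) [NeZero N] : Prop where
  gauss : ∀ ℓ : ℕ, ℓ.Prime → ¬ ℓ ∣ N → ∀ A : ValuationSubring Qb, A.LiesOverPrime ℓ →
    Kummer.GaussNormalisable N A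
  kummer : ∀ m ℓ : ℕ, ℓ.Prime → ¬ ℓ ∣ m * N → ∀ A : ValuationSubring Qb, A.LiesOverPrime ℓ →
    Kummer.KummerRedInj N A m

variable (N : ℕ) [NeZero N]

/-! ### E1: cardinality and finiteness of the torsion (unconditional) -/

theorem finite_tors (m : ℕ) (hm : 0 < m) : Finite (S31Red.JTors N m) := by
  obtain ⟨g, -, hcard⟩ := card_tors N
  exact Nat.finite_of_card_ne_zero (by
    show Nat.card (Tors N m) ≠ 0
    rw [hcard m hm]
    exact pow_ne_zero _ hm.ne')

/-- the rank of the Tate module: twice the genus. -/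
theorem exists_card_JTors : ∃ h : ℕ, ∀ m : ℕ, 0 < m → Nat.card (S31Red.JTors N m) = m ^ h := by
  obtain ⟨g, -, hcard⟩ := card_tors N
  exact ⟨2 * g, fun m hm => hcard m hm⟩

/-- **E7** (unconditional). -/
theorem torsionGalLevel : S31Red.TorsionGalLevel N :=
  S31Red.torsionGalLevel_of_finite N (finite_tors N)

/-! ### E2 + E3 from the core inputs -/

/-- **E2 + E3** in the shape of the consumer `S31Red.HeckeTorsionAction`. -/
noncomputable def heckeTorsionAction (I : CoreInputs N) (S : Finset ℕ)
    (hNS : ∀ q : ℕ, q.Prime → q ∣ N → q ∈ S) : S31Red.HeckeTorsionAction N S where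
  eta m hm := heckeTors I S hNS m hm
  eta_T m hm _ hℓ hℓN hℓS x := heckeTors_T I S hNS m hm hℓ hℓN hℓS x
  faithful p hp := exists_faithful I S hNS p hp

/-! ### E5 + E6 from part (c) -/

variable {N}

/-- **E5** from part (c). -/
theorem torsionUnramified (hC : PartCInputs N) : S31Red.TorsionUnramified N :=
  Kummer.torsionUnramified N hC.gauss hC.kummer

/-- **E6** from part (c) (C1 and the Hecke inputs are theorems). -/
theorem torsionEichlerShimura (hC : PartCInputs N) : S31Red.TorsionEichlerShimura N :=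
  Kummer.torsionEichlerShimura N (Hecke.C1Qbar.heckeInputs_Qbar N)
    (Hecke.C1Qbar.exists_normQExpFormula N) hC.gauss hC.kummer

/-! ### The frozen statements -/

/-- Tate module data in coordinates for `J₀(N)`. -/
theorem nonempty_tateMatrixData (hD5 : D5Input N) (hC : PartCInputs N) (p : ℕ) [Fact p.Prime]
    (S : Finset ℕ) (hpS : p ∈ S) (hNS : ∀ q : ℕ, q.Prime → q ∣ N → q ∈ S) :
    Nonempty (Assembly.TateMatrixData p N S) := by
  obtain ⟨h, hcard⟩ := exists_card_JTors N
  exact Assembly.nonempty_tateMatrixData_of_export hpS hNS h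
    (fun n => hcard _ (pow_pos (Fact.out : p.Prime).pos n))
    (heckeTorsionAction N (coreInputs N hD5) S hNS) (S31Red.galoisHeckeComm N)
    (torsionUnramified hC) (torsionEichlerShimura hC) (torsionGalLevel N)

/-- **S31** (for the level `N`) from D5 and part (c). -/
theorem s31_of_inputs (hD5 : D5Input N) (hC : PartCInputs N)
    {p : ℕ} {S : Finset ℕ}
    {𝒪 : Type} [CommRing 𝒪] [IsDomain 𝒪] [IsDiscreteValuationRing 𝒪]
    [IsAdicComplete (IsLocalRing.maximalIdeal 𝒪) 𝒪]
    {θ : CuspForm.heckeAlgebra N 2 (↑S : Set ℕ) →+* IsLocalRing.ResidueField 𝒪}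
    {T : Type} [CommRing T] [IsLocalRing T] [IsNoetherianRing T]
    [IsAdicComplete (IsLocalRing.maximalIdeal T) T] [Algebra 𝒪 T] [IsLocalHom (algebraMap 𝒪 T)]
    [Module.Finite 𝒪 T] [Module.Free 𝒪 T]
    (hp : p.Prime) (hp𝒪 : (p : 𝒪) ∈ IsLocalRing.maximalIdeal 𝒪) (hpS : p ∈ S)
    (hNS : ∀ q : ℕ, q.Prime → q ∣ N → q ∈ S)
    (H : CuspForm.HeckeGaloisRepDatum N (↑S : Set ℕ) 𝒪 θ T)
    (q : ℕ) (hq : q.Prime) (hqS : q ∉ S) :
    H.ρ.IsUnramifiedAt q :=
  S31Red.s31_of_export Fermat.Agent.Lib.FrobDensity.frobPowerDense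
    (heckeTorsionAction N (coreInputs N hD5) S hNS) (S31Red.galoisHeckeComm N)
    (torsionUnramified hC) (torsionEichlerShimura hC) (torsionGalLevel N)
    hp hp𝒪 hpS hNS H q hq hqS

/-- the existence of Tate module data at all levels. -/
theorem tateMatrixDataExists (hD5 : ∀ (N : ℕ) [NeZero N], D5Input N)
    (hC : ∀ (N : ℕ) [NeZero N], PartCInputs N) : Assembly.TateMatrixDataExists :=
  fun p _ N _ S hpS hNS => nonempty_tateMatrixData (hD5 N) (hC N) p S hpS hNS

/-- **S30** from D5 and part (c). -/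
theorem s30Statement (hD5 : ∀ (N : ℕ) [NeZero N], D5Input N)
    (hC : ∀ (N : ℕ) [NeZero N], PartCInputs N) : Assembly.S30Statement :=
  Assembly.s30Statement_of_tateMatrixData (tateMatrixDataExists hD5 hC)

/-- **S29** from D5 and part (c). -/
theorem s29Statement (hD5 : ∀ (N : ℕ) [NeZero N], D5Input N)
    (hC : ∀ (N : ℕ) [NeZero N], PartCInputs N) : Assembly.S29Statement :=
  Assembly.s29Statement_of_tateMatrixData (tateMatrixDataExists hD5 hC)

/-- **S42** from D5 and part (c). -/
theorem s42Statement (hD5 : ∀ (N : ℕ) [NeZero N], D5Input N)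
    (hC : ∀ (N : ℕ) [NeZero N], PartCInputs N) : Assembly.S42Statement :=
  Assembly.s42Statement_of_tateMatrixData (tateMatrixDataExists hD5 hC)

end Fermat.Agent.Gateway.Export
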