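import Mathlib

/-!
P-GATEWAY, export layer (pure algebra).  A `ℤ`-algebra `adjoin ℤ gens` of endomorphisms of a complex
vector space `W` acts on a lattice `Q` as soon as `W × W ≃ Hom(Q, ℂ)` and every generator
is realised by an endomorphism of `Q`.  The action is faithful, and `p`-adically faithful.
-/

set_option autoImplicit false

namespace Fermat.Agent.Gateway.Export

open Module

section Realise

variable {W : Type*} [AddCommGroup W] [Module ℂ W]
variable {Q : Type*} [AddCommGroup Q]

/-- the endomorphism `t` of `W` is realised on the lattice `Q` by `u`. -/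
def Realises (P : (W × W) →ₗ[ℂ] (Q →+ ℂ)) (t : Module.End ℂ W) (u : Module.End ℤ Q) : Prop :=
  ∀ w, P (t.prodMap t w) = (P w).comp u.toAddMonoidHom

variable (P : (W × W) →ₗ[ℂ] (Q →+ ℂ))

theorem Realises.mul {a b : Module.End ℂ W} {ua ub : Module.End ℤ Q} (ha : Realises P a ua)
    (hb : Realises P b ub) : Realises P (a * b) (ub * ua) := by
  intro w
  have h1 : (a * b).prodMap (a * b) w = a.prodMap a (b.prodMap b w) := rfl
  rw [h1, ha, hb]
  rfl

theorem Realises.add {a b : Module.End ℂ W} {ua ub : Module.End ℤ Q} (ha : Realises P a ua)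
    (hb : Realises P b ub) : Realises P (a + b) (ua + ub) := by
  intro w
  have h1 : (a + b).prodMap (a + b) w = a.prodMap a w + b.prodMap b w := rfl
  rw [h1, map_add, ha w, hb w]
  refine AddMonoidHom.ext fun x => ?_
  show (P w) (ua x) + (P w) (ub x) = (P w) (ua x + ub x)
  rw [map_add]

theorem Realises.intCast (n : ℤ) :
    Realises P (algebraMap ℤ (Module.End ℂ W) n) (algebraMap ℤ (Module.End ℤ Q) n) := by
  intro w
  have h1 : (algebraMap ℤ (Module.End ℂ W) n).prodMap (algebraMap ℤ (Module.End ℂ W) n) w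
      = n • w := by
    rw [Algebra.algebraMap_eq_smul_one]
    rfl
  rw [h1, map_zsmul]
  refine AddMonoidHom.ext fun x => ?_
  show n • (P w) x = (P w) ((algebraMap ℤ (Module.End ℤ Q) n) x)
  rw [Algebra.algebraMap_eq_smul_one]
  show n • (P w) x = (P w) (n • x)
  rw [map_zsmul]

/-- the subalgebra of realised endomorphisms. -/
def realAlg : Subalgebra ℤ (Module.End ℂ W) where
  carrier := {t | ∃ u, Realises P t u}
  mul_mem' := by
    rintro a b ⟨ua, ha⟩ ⟨ub, hb⟩
    exact ⟨ub * ua, ha.mul P hb⟩
  add_mem' := by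
    rintro a b ⟨ua, ha⟩ ⟨ub, hb⟩
    exact ⟨ua + ub, ha.add P hb⟩
  algebraMap_mem' n := ⟨_, Realises.intCast P n⟩

theorem adjoin_le_realAlg {gens : Set (Module.End ℂ W)}
    (hg : ∀ T ∈ gens, ∃ u, Realises P T u) : Algebra.adjoin ℤ gens ≤ realAlg P :=
  Algebra.adjoin_le hg

variable [Module.Free ℤ Q]

omit [AddCommGroup W] [Module ℂ W] in
/-- homomorphisms to `ℂ` separate the points of a free `ℤ`-module. -/
theorem eq_zero_of_forall_hom_complex {y : Q} (h : ∀ φ : Q →+ ℂ, φ y = 0) : y = 0 := by
  let b := Module.Free.chooseBasis ℤ Q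
  rw [← b.forall_coord_eq_zero_iff]
  intro i
  have := h ((Int.castAddHom ℂ).comp (b.coord i).toAddMonoidHom)
  simpa using this

omit [AddCommGroup W] [Module ℂ W] in
theorem end_ext_of_hom_complex {u u' : Module.End ℤ Q}
    (h : ∀ φ : Q →+ ℂ, φ.comp u.toAddMonoidHom = φ.comp u'.toAddMonoidHom) : u = u' := by
  refine LinearMap.ext fun x => ?_
  rw [← sub_eq_zero]
  refine eq_zero_of_forall_hom_complex fun φ => ?_
  have := DFunLike.congr_fun (h φ) x
  rw [map_sub, sub_eq_zero]
  exact this

theorem Realises.unique (hP : Function.Surjective P) {t : Module.End ℂ W}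
    {u u' : Module.End ℤ Q} (h : Realises P t u) (h' : Realises P t u') : u = u' := by
  refine end_ext_of_hom_complex fun φ => ?_
  obtain ⟨w, rfl⟩ := hP φ
  rw [← h w, ← h' w]

/-- the realising endomorphism of an element of `realAlg`. -/
noncomputable def real (t : realAlg P) : Module.End ℤ Q := t.2.choose

theorem realises_real (t : realAlg P) : Realises P t.1 (real P t) := t.2.choose_spec

theorem real_eq (hP : Function.Surjective P) (t : realAlg P) {u : Module.End ℤ Q}
    (h : Realises P t.1 u) : real P t = u :=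
  (realises_real P t).unique P hP h

theorem real_add (hP : Function.Surjective P) (a b : realAlg P) :
    real P (a + b) = real P a + real P b :=
  real_eq P hP _ ((realises_real P a).add P (realises_real P b))

theorem real_mul (hP : Function.Surjective P) (a b : realAlg P) :
    real P (a * b) = real P b * real P a :=
  real_eq P hP _ ((realises_real P a).mul P (realises_real P b))

theorem real_one (hP : Function.Surjective P) : real P (1 : realAlg P) = 1 := by
  refine real_eq P hP _ ?_
  have := Realises.intCast P (1 : ℤ)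
  rwa [map_one, map_one] at this

theorem real_zero (hP : Function.Surjective P) : real P (0 : realAlg P) = 0 := by
  refine real_eq P hP _ ?_
  have := Realises.intCast P (0 : ℤ)
  rwa [map_zero, map_zero] at this

/-- `real` as an additive map. -/
noncomputable def realHom (hP : Function.Surjective P) : realAlg P →+ Module.End ℤ Q where
  toFun := real P
  map_zero' := real_zero P hP
  map_add' := real_add P hP

theorem realHom_injective (hP : Function.Surjective P) (hPi : Function.Injective P) :
    Function.Injective (realHom P hP) := by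
  rw [injective_iff_map_eq_zero]
  intro t ht
  have hr := realises_real P t
  have h0 : real P t = 0 := ht
  rw [h0] at hr
  apply Subtype.ext
  refine LinearMap.ext fun w => ?_
  have h1 := hr (w, 0)
  have h2 : (P (w, 0)).comp (0 : Module.End ℤ Q).toAddMonoidHom = 0 := by
    refine AddMonoidHom.ext fun x => ?_
    show (P (w, 0)) ((0 : Module.End ℤ Q) x) = 0
    rw [LinearMap.zero_apply, map_zero]
  rw [h2] at h1
  have h3 : t.1.prodMap t.1 (w, 0) = 0 := hPi (by rw [h1, map_zero])
  have h4 := congrArg Prod.fst h3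
  simpa using h4

end Realise

section ModM

variable {Q : Type*} [AddCommGroup Q] [Module.Free ℤ Q]

/-- an endomorphism killing all homomorphisms to `ℤ/m` is divisible by `m`. -/
theorem exists_eq_smul_of_comp_eq_zero {m : ℕ} (hm : m ≠ 0) (u : Module.End ℤ Q)
    (h : ∀ φ : Q →+ ZMod m, φ.comp u.toAddMonoidHom = 0) : ∃ u' : Module.End ℤ Q, u = (m : ℤ) • u' := by
  classical
  let b := Module.Free.chooseBasis ℤ Q
  have hdvd : ∀ x i, (m : ℤ) ∣ b.coord i (u x) := by
    intro x i
    have := DFunLike.congr_fun (h ((Int.castAddHom (ZMod m)).comp (b.coord i).toAddMonoidHom)) x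
    have h2 : ((b.coord i (u x) : ℤ) : ZMod m) = 0 := this
    exact (ZMod.intCast_zmod_eq_zero_iff_dvd _ _).mp h2
  have hm' : (m : ℤ) ≠ 0 := by exact_mod_cast hm
  -- divide the coordinates
  have hex : ∀ x, ∃ y, u x = (m : ℤ) • y := by
    intro x
    refine ⟨b.repr.symm ((b.repr (u x)).mapRange (fun c => c / (m : ℤ)) (by simp)), ?_⟩
    apply b.repr.injective
    rw [map_smul, LinearEquiv.apply_symm_apply]
    ext i
    rw [Finsupp.smul_apply, Finsupp.mapRange_apply, smul_eq_mul]
    have := hdvd x i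
    rw [Module.Basis.coord_apply] at this
    rw [Int.mul_ediv_cancel' this]
  choose f hf using hex
  have hinj : ∀ y y' : Q, (m : ℤ) • y = (m : ℤ) • y' → y = y' := by
    intro y y' hyy
    have : (m : ℤ) • (y - y') = 0 := by rw [smul_sub, hyy, sub_self]
    have h0 := (smul_eq_zero.mp this).resolve_left hm'
    exact sub_eq_zero.mp h0
  refine ⟨{ toFun := f
            map_add' := fun x y => hinj _ _ (by rw [← hf, smul_add, ← hf, ← hf, map_add])
            map_smul' := fun c x => hinj _ _ (by
              rw [← hf, RingHom.id_apply, smul_comm, ← hf, map_smul]) }, ?_⟩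
  refine LinearMap.ext fun x => ?_
  rw [LinearMap.smul_apply]
  exact hf x

end ModM

section Saturation

variable {Q : Type*} [AddCommGroup Q] [Module.Free ℤ Q] [Module.Finite ℤ Q]
variable {A : Type*} [AddCommGroup A]

/-- the saturation of an additive subgroup of `End Q` has bounded index exponent. -/
theorem exists_sat_bound (υ : A →+ Module.End ℤ Q) :
    ∃ c : ℕ, 0 < c ∧ ∀ (x : Module.End ℤ Q) (k : ℕ), k ≠ 0 →
      (k : ℤ) • x ∈ Set.range υ → (c : ℤ) • x ∈ Set.range υ := by
  classical
  let R : Submodule ℤ (Module.End ℤ Q) := (AddMonoidHom.range υ).toIntSubmodule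
  let Sat : Submodule ℤ (Module.End ℤ Q) :=
    { carrier := {x | ∃ k : ℕ, k ≠ 0 ∧ (k : ℤ) • x ∈ R}
      add_mem' := by
        rintro x y ⟨k, hk, hx⟩ ⟨l, hl, hy⟩
        refine ⟨k * l, Nat.mul_ne_zero hk hl, ?_⟩
        have h1 : ((k * l : ℕ) : ℤ) • (x + y) = (l : ℤ) • ((k : ℤ) • x) + (k : ℤ) • ((l : ℤ) • y) := by
          rw [smul_add, smul_smul, smul_smul]
          push_cast
          rw [mul_comm (l : ℤ) (k : ℤ)]
        rw [h1]
        exact R.add_mem (R.smul_mem _ hx) (R.smul_mem _ hy)
      zero_mem' := ⟨1, one_ne_zero, by rw [smul_zero]; exact R.zero_mem⟩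
      smul_mem' := by
        rintro c x ⟨k, hk, hx⟩
        refine ⟨k, hk, ?_⟩
        rw [smul_comm]
        exact R.smul_mem _ hx }
  have hfg : Sat.FG := IsNoetherian.noetherian Sat
  obtain ⟨s, hs⟩ := hfg
  have hsk : ∀ x ∈ s, ∃ k : ℕ, k ≠ 0 ∧ (k : ℤ) • x ∈ R := by
    intro x hx
    have : x ∈ Sat := hs ▸ Submodule.subset_span hx
    exact this
  choose! kf hkf using hsk
  refine ⟨∏ x ∈ s, kf x, Nat.pos_of_ne_zero (Finset.prod_ne_zero_iff.mpr fun x hx => (hkf x hx).1), ?_⟩
  intro x k hk hx
  have hxS : x ∈ Sat := ⟨k, hk, hx⟩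
  rw [← hs] at hxS
  have key : ∀ y ∈ Submodule.span ℤ (s : Set (Module.End ℤ Q)),
      ((∏ x ∈ s, kf x : ℕ) : ℤ) • y ∈ R := by
    intro y hy
    induction hy using Submodule.span_induction with
    | mem y hy =>
      have hy' : y ∈ s := hy
      obtain ⟨d, hd⟩ := Finset.dvd_prod_of_mem kf hy'
      rw [hd]
      push_cast
      rw [mul_comm, mul_smul]
      exact R.smul_mem _ (hkf y hy').2
    | zero => rw [smul_zero]; exact R.zero_mem
    | add y z _ _ hy hz => rw [smul_add]; exact R.add_mem hy hz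
    | smul c y _ hy => rw [smul_comm]; exact R.smul_mem _ hy
  exact key x hxS

/-- `p`-adic faithfulness of an injective additive map into `End Q`. -/
theorem exists_padic_faithful (υ : A →+ Module.End ℤ Q) (hυ : Function.Injective υ) (p : ℕ)
    (hp : p.Prime) :
    ∃ c0 : ℕ, ∀ (y : A) (n : ℕ) (x : Module.End ℤ Q), υ y = ((p : ℤ) ^ (n + c0)) • x →
      ∃ y' : A, y = ((p : ℤ) ^ n) • y' := by
  obtain ⟨c, hc, hsat⟩ := exists_sat_bound υ
  -- write c = p^c0 * c'
  obtain ⟨c0, c', hc', hcc⟩ := Nat.exists_eq_pow_mul_and_not_dvd hc.ne' p hp.ne_one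
  refine ⟨c0, fun y n x hy => ?_⟩
  have hx : ((p ^ (n + c0) : ℕ) : ℤ) • x ∈ Set.range υ := ⟨y, by rw [hy]; push_cast; rfl⟩
  obtain ⟨s, hs⟩ := hsat x (p ^ (n + c0)) (pow_ne_zero _ hp.ne_zero) hx
  -- c' • υ y = p^n • υ s
  have h1 : υ ((c' : ℤ) • y) = υ (((p : ℤ) ^ n) • s) := by
    rw [map_zsmul, map_zsmul, hs, hy, smul_smul, smul_smul, hcc]
    congr 1
    push_cast
    ring
  have h2 := hυ h1
  have hcop : IsCoprime (c' : ℤ) ((p : ℤ) ^ n) := by
    apply IsCoprime.pow_right
    rw [Int.isCoprime_iff_gcd_eq_one]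
    have : Nat.Coprime c' p := (Nat.Coprime.symm ((Nat.Prime.coprime_iff_not_dvd hp).mpr hc'))
    simpa [Int.gcd_natCast_natCast] using this
  obtain ⟨a, b, hab⟩ := hcop
  refine ⟨a • s + b • y, ?_⟩
  calc y = (1 : ℤ) • y := (one_smul _ _).symm
    _ = (a * (c' : ℤ) + b * (p : ℤ) ^ n) • y := by rw [hab]
    _ = a • ((c' : ℤ) • y) + ((p : ℤ) ^ n) • (b • y) := by
      rw [add_smul, mul_smul, mul_comm b, mul_smul]
    _ = ((p : ℤ) ^ n) • (a • s + b • y) := by
      rw [h2, smul_add, smul_comm a]

end Saturation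

end Fermat.Agent.Gateway.Export
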