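import Fermat.Agent.Gateway.Export.Contract

/-!
P-GATEWAY, export layer: from the producer contract (`CoreInputs`, `GaloisHeckeComm`, `GalLevel`,
`UnramifiedTorsion`, `EichlerShimuraTorsion`) to the consumer structure `TorsionHeckeData`.
-/

set_option autoImplicit false

namespace Fermat.Agent.Gateway.Export

open CongruenceSubgroup ModularCurve AlgebraicCurve Fermat.Agent.Gateway.A2
  Fermat.Agent.Gateway.A2.Count Fermat.Agent.Gateway.S31Red

open scoped MatrixGroups

local notation "Qb" => AlgebraicClosure ℚ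
local notation "Γℚ" => (AlgebraicClosure ℚ ≃ₐ[ℚ] AlgebraicClosure ℚ)

variable {N : ℕ} [NeZero N] (I : CoreInputs N)

/-- the generators of the Hecke algebra are realised on the lattice. -/
theorem realises_heckeTLin (ℓ : ℕ) (hℓ : ℓ.Prime) (hℓN : ¬ ℓ ∣ N) :
    Realises (periodQ N) (CuspForm.heckeTLin 2 hℓ hℓN) (I.T ℓ hℓ hℓN).toEnd := by
  intro w
  apply peRes_injective (Gamma0 N) ℂ ℂ
  rw [peRes_periodQ, I.period, CohOp.peRes_comp_toEnd, peRes_periodQ]

variable (S : Finset ℕ) (hNS : ∀ q : ℕ, q.Prime → q ∣ N → q ∈ S)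

include I hNS in
theorem heckeAlgebra_le_realAlg :
    CuspForm.heckeAlgebra N 2 (↑S : Set ℕ) ≤ realAlg (periodQ N) := by
  refine adjoin_le_realAlg (periodQ N) ?_
  rintro T (⟨ℓ, hℓ, hℓN, -, rfl⟩ | ⟨q, hqN, hq, hqS, rfl⟩)
  · exact ⟨_, realises_heckeTLin I ℓ hℓ hℓN⟩
  · exact absurd (hNS q hq hqN) hqS

/-- the lattice action of the Hecke algebra (additive, anti-multiplicative, injective). -/
noncomputable def latHom : CuspForm.heckeAlgebra N 2 (↑S : Set ℕ) →+ Module.End ℤ (QLat N) :=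
  (realHom (periodQ N) (periodQ_surjective N)).comp
    (Subalgebra.inclusion (heckeAlgebra_le_realAlg I S hNS)).toRingHom.toAddMonoidHom

theorem latHom_apply (t : CuspForm.heckeAlgebra N 2 (↑S : Set ℕ)) :
    latHom I S hNS t = real (periodQ N) (Subalgebra.inclusion (heckeAlgebra_le_realAlg I S hNS) t) :=
  rfl

theorem latHom_mul (a b : CuspForm.heckeAlgebra N 2 (↑S : Set ℕ)) :
    latHom I S hNS (a * b) = latHom I S hNS b * latHom I S hNS a := by
  rw [latHom_apply, latHom_apply, latHom_apply, map_mul]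
  exact real_mul (periodQ N) (periodQ_surjective N) _ _

theorem latHom_one : latHom I S hNS 1 = 1 := by
  rw [latHom_apply, map_one]
  exact real_one (periodQ N) (periodQ_surjective N)

theorem latHom_injective : Function.Injective (latHom I S hNS) := by
  intro a b hab
  have h1 := realHom_injective (periodQ N) (periodQ_surjective N) (periodQ_injective N) hab
  exact Subalgebra.inclusion_injective (heckeAlgebra_le_realAlg I S hNS) h1

theorem latHom_T {ℓ : ℕ} (hℓ : ℓ.Prime) (hℓN : ¬ ℓ ∣ N) (hℓS : ℓ ∉ (↑S : Set ℕ)) :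
    latHom I S hNS (CuspForm.heckeAlgebra.T hℓ hℓN hℓS) = (I.T ℓ hℓ hℓN).toEnd := by
  rw [latHom_apply]
  exact real_eq (periodQ N) (periodQ_surjective N) _ (realises_heckeTLin I ℓ hℓ hℓN)

/-- the action of the Hecke algebra on `Hom(Q, B)`, by precomposition. -/
noncomputable def homAct (B : Type) [AddCommGroup B] :
    CuspForm.heckeAlgebra N 2 (↑S : Set ℕ) →+* AddMonoid.End (QLat N →+ B) where
  toFun t :=
    { toFun := fun φ => φ.comp (latHom I S hNS t).toAddMonoidHom
      map_zero' := rfl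
      map_add' := fun _ _ => rfl }
  map_one' := by
    refine AddMonoidHom.ext fun φ => ?_
    show φ.comp (latHom I S hNS 1).toAddMonoidHom = φ
    rw [latHom_one]
    rfl
  map_mul' a b := by
    refine AddMonoidHom.ext fun φ => ?_
    show φ.comp (latHom I S hNS (a * b)).toAddMonoidHom
      = (φ.comp (latHom I S hNS b).toAddMonoidHom).comp (latHom I S hNS a).toAddMonoidHom
    rw [latHom_mul]
    rfl
  map_zero' := by
    refine AddMonoidHom.ext fun φ => ?_
    show φ.comp (latHom I S hNS 0).toAddMonoidHom = 0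
    rw [map_zero]
    refine AddMonoidHom.ext fun x => ?_
    show φ ((0 : Module.End ℤ (QLat N)) x) = 0
    rw [LinearMap.zero_apply, map_zero]
  map_add' a b := by
    refine AddMonoidHom.ext fun φ => ?_
    show φ.comp (latHom I S hNS (a + b)).toAddMonoidHom
      = φ.comp (latHom I S hNS a).toAddMonoidHom + φ.comp (latHom I S hNS b).toAddMonoidHom
    rw [map_add]
    refine AddMonoidHom.ext fun x => ?_
    show φ (latHom I S hNS a x + latHom I S hNS b x) = _
    rw [map_add]
    rfl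

theorem homAct_apply (B : Type) [AddCommGroup B] (t : CuspForm.heckeAlgebra N 2 (↑S : Set ℕ))
    (φ : QLat N →+ B) :
    homAct I S hNS B t φ = φ.comp (latHom I S hNS t).toAddMonoidHom := rfl

/-- transport of an endomorphism ring along an additive equivalence. -/
def endConj {X Y : Type*} [AddCommGroup X] [AddCommGroup Y] (e : X ≃+ Y) :
    AddMonoid.End Y →+* AddMonoid.End X where
  toFun f := (e.symm.toAddMonoidHom.comp f).comp e.toAddMonoidHom
  map_one' := by
    refine AddMonoidHom.ext fun x => ?_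
    show e.symm (e x) = x
    exact e.symm_apply_apply x
  map_mul' f g := by
    refine AddMonoidHom.ext fun x => ?_
    show e.symm (f (g (e x))) = e.symm (f (e (e.symm (g (e x)))))
    rw [e.apply_symm_apply]
  map_zero' := by
    refine AddMonoidHom.ext fun x => ?_
    show e.symm ((0 : AddMonoid.End Y) (e x)) = 0
    exact map_zero e.symm
  map_add' f g := by
    refine AddMonoidHom.ext fun x => ?_
    show e.symm (f (e x) + g (e x)) = e.symm (f (e x)) + e.symm (g (e x))
    exact map_add e.symm _ _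

theorem endConj_apply {X Y : Type*} [AddCommGroup X] [AddCommGroup Y] (e : X ≃+ Y)
    (f : AddMonoid.End Y) (x : X) : endConj e f x = e.symm (f (e x)) := rfl

/-- the Hecke action on the `m`-torsion. -/
noncomputable def heckeTors (m : ℕ) (hm : 0 < m) :
    CuspForm.heckeAlgebra N 2 (↑S : Set ℕ) →+* AddMonoid.End (Tors N m) :=
  (endConj (I.xi m hm)).comp (homAct I S hNS (ZMod m))

theorem heckeJ_mem_tors (ℓ : ℕ) (hℓ : ℓ.Prime) {m : ℕ} {x : JZero N} (hx : x ∈ Tors N m) :
    heckeJ N ℓ hℓ x ∈ Tors N m := by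
  rw [Pic0.mem_torsion] at hx ⊢
  rw [← map_zsmul, hx, map_zero]

/-- **E2**: the generator `T_ℓ` acts on the torsion as the Hecke correspondence. -/
theorem heckeTors_T (m : ℕ) (hm : 0 < m) {ℓ : ℕ} (hℓ : ℓ.Prime) (hℓN : ¬ ℓ ∣ N)
    (hℓS : ℓ ∉ (↑S : Set ℕ)) (x : Tors N m) :
    ((heckeTors I S hNS m hm (CuspForm.heckeAlgebra.T hℓ hℓN hℓS) x : Tors N m) : JZero N)
      = heckeJ N ℓ hℓ x := by
  have hx := heckeJ_mem_tors ℓ hℓ x.2
  have key : heckeTors I S hNS m hm (CuspForm.heckeAlgebra.T hℓ hℓN hℓS) x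
      = ⟨heckeJ N ℓ hℓ x, hx⟩ := by
    apply (I.xi m hm).injective
    have h1 : I.xi m hm (heckeTors I S hNS m hm (CuspForm.heckeAlgebra.T hℓ hℓN hℓS) x)
        = homAct I S hNS (ZMod m) (CuspForm.heckeAlgebra.T hℓ hℓN hℓS) (I.xi m hm x) := by
      show (I.xi m hm) ((I.xi m hm).symm _) = _
      exact AddEquiv.apply_symm_apply _ _
    rw [h1, homAct_apply, latHom_T]
    apply peRes_injective (Gamma0 N) ℤ (ZMod m)
    rw [CohOp.peRes_comp_toEnd, I.xi_hecke m hm ℓ hℓ hℓN x hx]
  rw [key]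

/-- the Galois action on the torsion, as additive endomorphisms. -/
noncomputable def galTors (m : ℕ) : Γℚ →* AddMonoid.End (Tors N m) where
  toFun σ := (JZero.torsionGaloisRep N m σ).toAddMonoidHom
  map_one' := by
    refine AddMonoidHom.ext fun x => ?_
    show JZero.torsionGaloisRep N m 1 x = x
    rw [map_one]
    rfl
  map_mul' σ τ := by
    refine AddMonoidHom.ext fun x => ?_
    show JZero.torsionGaloisRep N m (σ * τ) x
      = JZero.torsionGaloisRep N m σ (JZero.torsionGaloisRep N m τ x)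
    rw [map_mul]
    rfl

theorem coe_galTors (m : ℕ) (σ : Γℚ) (x : Tors N m) :
    ((galTors (N := N) m σ x : Tors N m) : JZero N) = σ • (x : JZero N) :=
  JZero.coe_torsionGaloisRep_apply N σ x

/-- **E4 on generators**. -/
theorem commute_galTors_heckeTors_T (hcomm : GaloisHeckeComm N) (m : ℕ) (hm : 0 < m) (σ : Γℚ)
    {ℓ : ℕ} (hℓ : ℓ.Prime) (hℓN : ¬ ℓ ∣ N) (hℓS : ℓ ∉ (↑S : Set ℕ)) :
    Commute (galTors (N := N) m σ)
      (heckeTors I S hNS m hm (CuspForm.heckeAlgebra.T hℓ hℓN hℓS)) := by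
  refine DFunLike.ext _ _ fun x => ?_
  show galTors m σ (heckeTors I S hNS m hm (CuspForm.heckeAlgebra.T hℓ hℓN hℓS) x)
    = heckeTors I S hNS m hm (CuspForm.heckeAlgebra.T hℓ hℓN hℓS) (galTors m σ x)
  apply Subtype.ext
  rw [coe_galTors, heckeTors_T, heckeTors_T, coe_galTors]
  exact hcomm ℓ hℓ σ x

/-- the subalgebra of Hecke operators commuting with a given endomorphism of the torsion. -/
noncomputable def commAlg (m : ℕ) (hm : 0 < m) (g : AddMonoid.End (Tors N m)) :
    Subalgebra ℤ (CuspForm.heckeAlgebra N 2 (↑S : Set ℕ)) where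
  carrier := {t | Commute g (heckeTors I S hNS m hm t)}
  mul_mem' := by
    intro a b ha hb
    show Commute g (heckeTors I S hNS m hm (a * b))
    rw [map_mul]
    exact Commute.mul_right ha hb
  add_mem' := by
    intro a b ha hb
    show Commute g (heckeTors I S hNS m hm (a + b))
    rw [map_add]
    exact Commute.add_right ha hb
  algebraMap_mem' n := by
    show Commute g (heckeTors I S hNS m hm (algebraMap ℤ _ n))
    rw [eq_intCast, map_intCast]
    exact Int.commute_cast _ n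

/-- **E4 on the whole algebra**: Galois commutes with the Hecke action on torsion. -/
theorem commute_galTors_heckeTors (hcomm : GaloisHeckeComm N) (m : ℕ) (hm : 0 < m) (σ : Γℚ)
    (t : CuspForm.heckeAlgebra N 2 (↑S : Set ℕ)) :
    Commute (galTors (N := N) m σ) (heckeTors I S hNS m hm t) := by
  have htop : Algebra.adjoin ℤ
      ((↑) ⁻¹' CuspForm.heckeGenerators N 2 (↑S : Set ℕ) :
        Set (Algebra.adjoin ℤ (CuspForm.heckeGenerators N 2 (↑S : Set ℕ)))) = ⊤ :=
    Algebra.adjoin_adjoin_coe_preimage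
  have hle : Algebra.adjoin ℤ
      ((↑) ⁻¹' CuspForm.heckeGenerators N 2 (↑S : Set ℕ) :
        Set (Algebra.adjoin ℤ (CuspForm.heckeGenerators N 2 (↑S : Set ℕ))))
      ≤ commAlg I S hNS m hm (galTors m σ) := by
    refine Algebra.adjoin_le ?_
    rintro ⟨T, hT⟩ hmem
    rcases hmem with ⟨ℓ, hℓ, hℓN, hℓS, rfl⟩ | ⟨q, hqN, hq, hqS, rfl⟩
    · exact commute_galTors_heckeTors_T I S hNS hcomm m hm σ hℓ hℓN hℓS
    · exact absurd (hNS q hq hqN) hqS
  have : t ∈ commAlg I S hNS m hm (galTors m σ) := hle (htop ▸ Algebra.mem_top)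
  exact this

/-- **E3**: `p`-adic faithfulness of the Hecke action on the torsion. -/
theorem exists_faithful (p : ℕ) (hp : p.Prime) :
    ∃ c0 : ℕ, ∀ (y : CuspForm.heckeAlgebra N 2 (↑S : Set ℕ)) (n : ℕ),
      heckeTors I S hNS (p ^ (n + c0)) (pow_pos hp.pos _) y = 0 →
        ∃ y' : CuspForm.heckeAlgebra N 2 (↑S : Set ℕ), y = ((p : ℤ) ^ n) • y' := by
  obtain ⟨c0, hc0⟩ := exists_padic_faithful (latHom I S hNS) (latHom_injective I S hNS) p hp
  refine ⟨c0, fun y n hy => ?_⟩
  have hkill : ∀ φ : QLat N →+ ZMod (p ^ (n + c0)),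
      φ.comp (latHom I S hNS y).toAddMonoidHom = 0 := by
    intro φ
    have h1 := DFunLike.congr_fun hy ((I.xi _ (pow_pos hp.pos _)).symm φ)
    have h2 : (I.xi (p ^ (n + c0)) (pow_pos hp.pos _))
        (heckeTors I S hNS (p ^ (n + c0)) (pow_pos hp.pos _) y
          ((I.xi _ (pow_pos hp.pos _)).symm φ))
        = φ.comp (latHom I S hNS y).toAddMonoidHom := by
      show (I.xi _ _) ((I.xi _ _).symm (homAct I S hNS _ y ((I.xi _ _) ((I.xi _ _).symm φ)))) = _
      rw [AddEquiv.apply_symm_apply, AddEquiv.apply_symm_apply, homAct_apply]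
    rw [← h2, h1]
    exact map_zero _
  obtain ⟨u', hu'⟩ := exists_eq_smul_of_comp_eq_zero (pow_pos hp.pos _).ne' (latHom I S hNS y) hkill
  refine hc0 y n u' ?_
  rw [hu']
  push_cast
  rfl

/-- a quadratic relation in an endomorphism ring, checked pointwise. -/
theorem end_quadratic_of_pointwise {X : Type*} [AddCommGroup X] (a b : AddMonoid.End X) (ℓ : ℕ)
    (h : ∀ x, a (a x) - b (a x) + ℓ • x = 0) :
    a * a - b * a + (ℓ : AddMonoid.End X) = 0 := by
  refine DFunLike.ext _ _ fun x => ?_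
  have e1 : (a * a - b * a + (ℓ : AddMonoid.End X)) x = a (a x) - b (a x) + ℓ • x := by
    rw [← AddMonoid.End.natCast_apply]
    rfl
  rw [e1, h]
  rfl

/-- **E6 in operator form**. -/
theorem es_tors (hES : EichlerShimuraTorsion N) (m : ℕ) (hm : 0 < m) {ℓ : ℕ} (hℓ : ℓ.Prime)
    (hℓN : ¬ ℓ ∣ N) (hℓS : ℓ ∉ (↑S : Set ℕ)) (hℓm : ¬ ℓ ∣ m)
    (A : ValuationSubring Qb) (hA : A.LiesOverPrime ℓ) (σ : Γℚ) (hσ : A.IsFrobeniusAt σ ℓ) :
    galTors (N := N) m σ * galTors m σ
      - heckeTors I S hNS m hm (CuspForm.heckeAlgebra.T hℓ hℓN hℓS) * galTors m σ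
      + (ℓ : AddMonoid.End (Tors N m)) = 0 := by
  refine end_quadratic_of_pointwise _ _ _ fun x => ?_
  have h0 := hES m ℓ hℓ hℓm hℓN A hA σ hσ x x.2
  have h1 : ((heckeTors I S hNS m hm (CuspForm.heckeAlgebra.T hℓ hℓN hℓS) (galTors m σ x) : Tors N m)
      : JZero N) = heckeJ N ℓ hℓ (σ • (x : JZero N)) := by
    rw [heckeTors_T, coe_galTors]
  have h2 : ((galTors m σ (galTors m σ x) : Tors N m) : JZero N) = σ • σ • (x : JZero N) := by
    rw [coe_galTors, coe_galTors]
  apply Subtype.ext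
  rw [AddSubgroup.coe_add, AddSubgroup.coe_sub, h1, h2, AddSubgroup.coe_nsmul, ← natCast_zsmul]
  exact h0

/-- **The export**: the torsion of `J₀(N)(ℚ̄)` as `TorsionHeckeData`. -/
noncomputable def torsionHeckeData (p : ℕ) (hp : p.Prime) (hpS : p ∈ S)
    (hcomm : GaloisHeckeComm N) (hlevel : GalLevel N) (hES : EichlerShimuraTorsion N) :
    TorsionHeckeData p N S where
  M n := Tors N (p ^ n)
  pow_smul n x := by
    have := x.2
    rw [Pic0.mem_torsion] at this
    apply Subtype.ext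
    have h2 : ((p ^ n) • x : Tors N (p ^ n)) = ((p ^ n : ℕ) : ℤ) • x := (natCast_zsmul x _).symm
    rw [h2]
    exact this
  gal n := galTors (p ^ n)
  gal_level n := by
    obtain ⟨K, hK, hfix⟩ := hlevel (p ^ n) (pow_pos hp.pos _)
    refine ⟨K, hK, fun σ hσ => ?_⟩
    refine DFunLike.ext _ _ fun x => Subtype.ext ?_
    rw [coe_galTors]
    exact hfix σ hσ x x.2
  hecke n := heckeTors I S hNS (p ^ n) (pow_pos hp.pos _)
  comm n σ t := commute_galTors_heckeTors I S hNS hcomm (p ^ n) (pow_pos hp.pos _) σ t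
  eichlerShimura n ℓ hℓ hℓN hℓS A hA σ hσ := by
    have hℓp : ¬ ℓ ∣ p ^ n := by
      intro h
      have h1 := hℓ.dvd_of_dvd_pow h
      have h2 : ℓ = p := (Nat.prime_dvd_prime_iff_eq hℓ hp).mp h1
      exact hℓS (by rw [h2]; exact hpS)
    exact es_tors I S hNS hES (p ^ n) (pow_pos hp.pos _) hℓ hℓN hℓS hℓp A hA σ hσ
  faithful := exists_faithful I S hNS p hp

theorem torsionHeckeData_isUnramifiedOutside (p : ℕ) (hp : p.Prime) (hpS : p ∈ S)
    (hcomm : GaloisHeckeComm N) (hlevel : GalLevel N) (hES : EichlerShimuraTorsion N)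
    (hur : UnramifiedTorsion N) :
    (torsionHeckeData I S hNS p hp hpS hcomm hlevel hES).IsUnramifiedOutside := by
  intro n q hq hqS P hP τ hτ
  have hqp : ¬ q ∣ p ^ n := by
    intro h
    have h1 := hq.dvd_of_dvd_pow h
    have h2 : q = p := (Nat.prime_dvd_prime_iff_eq hq hp).mp h1
    exact hqS (by rw [h2]; exact hpS)
  have hqN : ¬ q ∣ N := fun h => hqS (hNS q hq h)
  have key : galTors (N := N) (p ^ n) τ = 1 := by
    refine DFunLike.ext _ _ fun x => Subtype.ext ?_
    rw [coe_galTors]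
    exact hur (p ^ n) q hq hqp hqN P hP τ hτ x x.2
  exact key

end Fermat.Agent.Gateway.Export
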