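import Fermat.Agent.Gateway.Export.C0Good

/-!
P-GATEWAY, consumer glue for S34.  The frozen statement S34 (unipotent inertia at `q ∥ N`, `q ≠ p`)
follows from the single Prop `SemistableTorsion N`: an element `τ` of an inertia group at `q ∥ N`
fixes `τ • x - x` for every torsion point `x` of `J₀(N)(ℚ̄)` of order prime to `q`.  Everything else
(Hecke action on torsion, Eichler-Shimura, Frobenius density, ...) is plugged in.
-/

set_option autoImplicit false

namespace Fermat.Agent.Gateway.Export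

open ModularCurve AlgebraicCurve

local notation "Qb" => AlgebraicClosure ℚ
local notation "Γℚ" => (AlgebraicClosure ℚ ≃ₐ[ℚ] AlgebraicClosure ℚ)

/-- **Target of P-S34**: inertia at a prime `q ∥ N` acts unipotently (of level two) on the
prime-to-`q` torsion of `J₀(N)(ℚ̄)`: `(τ - 1)² x = 0`. -/
def SemistableTorsion (N : ℕ) : Prop :=
  ∀ (m q : ℕ), q.Prime → q ∣ N → ¬ q ^ 2 ∣ N → ¬ q ∣ m →
    ∀ A : ValuationSubring Qb, A.LiesOverPrime q → ∀ τ ∈ A.inertiaSubgroupIn ℚ,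
      ∀ x : JZero N, m • x = 0 → τ • (τ • x - x) = τ • x - x

variable {N : ℕ} [NeZero N]

/-- the torsion data of `J₀(N)` (unconditional). -/
noncomputable def torsionData {p : ℕ} (hp : p.Prime) {S : Finset ℕ} (hpS : p ∈ S)
    (hNS : ∀ q : ℕ, q.Prime → q ∣ N → q ∈ S) : S31Red.TorsionHeckeData p N S :=
  S31Red.torsionHeckeDataOfExport hp hpS hNS (heckeTorsionAction N (coreInputs' N) S hNS)
    (S31Red.galoisHeckeComm N) (torsionEichlerShimura (partCInputs c0Good N)) (torsionGalLevel N)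

theorem torsionData_isSemistableAt (hss : SemistableTorsion N) {p : ℕ} (hp : p.Prime)
    {S : Finset ℕ} (hpS : p ∈ S) (hNS : ∀ q : ℕ, q.Prime → q ∣ N → q ∈ S)
    (q : ℕ) (hq : q.Prime) (hqp : q ≠ p) (hqN : q ∣ N) (hq2 : ¬ q ^ 2 ∣ N) :
    (torsionData hp hpS hNS).IsSemistableAt q := by
  intro n P hP τ hτ
  have hqm : ¬ q ∣ p ^ n := by
    intro h
    exact hqp ((Nat.prime_dvd_prime_iff_eq hq hp).mp (hq.dvd_of_dvd_pow h))
  refine AddMonoidHom.ext fun (x : S31Red.JTors N (p ^ n)) => Subtype.ext ?_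
  have h := hss (p ^ n) q hq hqN hq2 hqm P hP τ hτ (x : JZero N) (S31Red.nsmul_coe_eq_zero x)
  show τ • (τ • (x : JZero N) - (x : JZero N)) - (τ • (x : JZero N) - (x : JZero N)) = 0
  rw [h, sub_self]

/-- **S34** from `SemistableTorsion N`. -/
theorem s34_of_semistableTorsion (hss : SemistableTorsion N)
    {p : ℕ} {S : Finset ℕ}
    {𝒪 : Type} [CommRing 𝒪] [IsDomain 𝒪] [IsDiscreteValuationRing 𝒪]
    [IsAdicComplete (IsLocalRing.maximalIdeal 𝒪) 𝒪]
    {θ : CuspForm.heckeAlgebra N 2 (↑S : Set ℕ) →+* IsLocalRing.ResidueField 𝒪}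
    {T : Type} [CommRing T] [IsLocalRing T] [IsNoetherianRing T]
    [IsAdicComplete (IsLocalRing.maximalIdeal T) T] [Algebra 𝒪 T] [IsLocalHom (algebraMap 𝒪 T)]
    [Module.Finite 𝒪 T] [Module.Free 𝒪 T]
    (hp : p.Prime) (hp𝒪 : (p : 𝒪) ∈ IsLocalRing.maximalIdeal 𝒪) (hpS : p ∈ S)
    (hNS : ∀ q : ℕ, q.Prime → q ∣ N → q ∈ S)
    (H : CuspForm.HeckeGaloisRepDatum N (↑S : Set ℕ) 𝒪 θ T)
    (q : ℕ) (hq : q.Prime) (hqp : q ≠ p) (hqN : q ∣ N) (hq2 : ¬ q ^ 2 ∣ N) :
    H.ρ.IsUnipotentOnInertiaAt q :=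
  S31Red.s34_of_data (S31Red.frobPowerDense_of_lib Fermat.Agent.Lib.FrobDensity.frobPowerDense)
    (torsionData hp hpS hNS) hp hp𝒪 hpS hNS H q hq hqp
    (torsionData_isSemistableAt hss hp hpS hNS q hq hqp hqN hq2)

end Fermat.Agent.Gateway.Export
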